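import Fermat.Agent.S38.IA.Hecke.H183.CmpSigIA
import Fermat.Agent.S59.TW.H494.GalT

/-!
# Row HARD, cell HECKE, layer 4: the leaf IA-GAL-T  (helper183, on helper494's general core)

* `galTSig_of : G4Statement → S34Shape494 → S30Statement → (∀ M, HasIntegralStructure M 2) →
    GalTSigStatement` — GAL-T for a package of ANY type `Σ`
  (`S59.TW.H494.inertiaValue_eq_one_of_sq_not_dvd494`).
* `iaGalT_of : … → IAGalTStatement` — the leaf IA-GAL-T of `CmpSpecIA.lean`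
  (`Σ = Smin ∪ Piv ∪ Q`).
-/

set_option autoImplicit false
set_option linter.style.haveILetI false
set_option linter.unusedVariables false

open Polynomial IsLocalRing CongruenceSubgroup
open scoped MatrixGroups

namespace Fermat.Agent.S38.IA.Hecke.H183

open Fermat.Agent.S59.Arch Fermat.Agent.S59.TW.H959 Fermat.Agent.S59.TW Fermat.Agent.S59.H765
open Fermat.Agent.S59.TW.H653 Fermat.Agent.S59.TW.Aut
open Fermat.Agent.S38.IA Fermat.Agent.S38.IA.Hecke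
open CuspForm

/-- **GAL-T for a package of any type `Σ`.** -/
theorem galTSig_of (hG4 : Fermat.Agent.S59.G4.G4Statement)
    (h34 : Fermat.Agent.S59.TW.H494.S34Shape494)
    (h30 : Fermat.Agent.S31.S30Statement)
    (hIS : ∀ (M : ℕ) [NeZero M], CuspForm.HasIntegralStructure M 2) : GalTSigStatement := by
  intro p hpF 𝒪 _ _ _ _ _ _ ρbar Smin h t Sig hSig hSminSig _ PQ q hq hqSig hqS hpq hdist
    P hP φ hφ σ hσ a₀ w hw O' _ _ _ _ _ _ emb hemb hnew
  classical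
  obtain ⟨M, hM, g, -, hc, hMS, chig, iota, -, hcompat⟩ := hnew
  haveI : NeZero M := hM
  have hp : p.Prime := hpF.out
  have hqp : q ≠ p := fun h' => hqS (h' ▸ h.hpSmin)
  have hpSig : p ∈ Sig := hSminSig h.hpSmin
  have hN₀ : ∀ q' : ℕ, q'.Prime → q' ∣ wilesLevel p t Smin Sig → q' ∈ Sig := fun q' hq' hqd =>
    mem_of_prime_dvd_wilesLevel hp h.hSmin hSig h.hpSmin hSminSig q' hq' hqd
  -- `p` is in the maximal ideal of `O'`
  have hpT : (p : PQ.T) ∈ maximalIdeal PQ.T := by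
    rw [IsLocalRing.mem_maximalIdeal]
    intro hu
    have h1 : IsUnit (algebraMap 𝒪 PQ.T (p : 𝒪)) := by rwa [map_natCast]
    exact (IsLocalRing.mem_maximalIdeal _).mp h.hp𝒪 (isUnit_of_map_unit (algebraMap 𝒪 PQ.T) _ h1)
  have hpO' : (p : O') ∈ maximalIdeal O' := by
    rw [IsLocalRing.mem_maximalIdeal]
    intro hu
    have h1 : IsUnit (emb (p : PQ.T)) := by rwa [map_natCast]
    exact (IsLocalRing.mem_maximalIdeal _).mp hpT (hemb.map_nonunit _ h1)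
  have hcompat' : ∀ (ℓ : ℕ) (hℓ : ℓ.Prime)
      (hℓN₀ : ¬ ℓ ∣ wilesLevel p t Smin Sig)
      (hℓS₀ : ℓ ∉ (↑Sig : Set ℕ))
      (hℓN' : ¬ ℓ ∣ M) (hℓS' : ℓ ∉ (↑Sig : Set ℕ)),
      emb (PQ.H.π (heckeAlgebra.T hℓ hℓN₀ hℓS₀)) =
        (iota.comp chig.rangeRestrict) (heckeAlgebra.T hℓ hℓN' hℓS') :=
    fun ℓ hℓ hℓN₀ hℓS₀ hℓN' hℓS' => (hcompat ℓ hℓ hℓN₀ hℓN' hℓS').symm
  exact Fermat.Agent.S59.TW.H494.inertiaValue_eq_one_of_sq_not_dvd494 hG4 h34 h30 hIS p h.hp2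
    hpO' PQ.H emb hemb hpSig hMS (Finset.Subset.refl _) hN₀ (iota.comp chig.rangeRestrict)
    hcompat' q hq hqp hc P hP φ σ hφ hσ a₀ w hw

/-- **IA-GAL-T** (leaf of `CmpSpecIA.lean`). -/
theorem iaGalT_of (hG4 : Fermat.Agent.S59.G4.G4Statement)
    (h34 : Fermat.Agent.S59.TW.H494.S34Shape494)
    (h30 : Fermat.Agent.S31.S30Statement)
    (hIS : ∀ (M : ℕ) [NeZero M], CuspForm.HasIntegralStructure M 2) : IAGalTStatement :=
  iaGalT_of_sig (galTSig_of hG4 h34 h30 hIS)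

end Fermat.Agent.S38.IA.Hecke.H183
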