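import Fermat.Agent.S38.IA.Hecke.H183.CmpGlueIA
import Fermat.Agent.S38.IA.Hecke.H183.GalTIA
import Fermat.Agent.S38.IA.Hecke.H183.GalRIA

/-!
# Row HARD, cell HECKE, layer 4: the leaf IA-CMP, wired  (helper183)

`iaCmp_of_dict : IAFreeStatement → IADictTStatement → IADictRStatement →
    G4Statement → S34Shape494 → S30Statement → (∀ M, HasIntegralStructure M 2) → S36Statement →
    Hecke.IACmpStatement`

(= `iaCmp_of_leaves` + `iaGalT_of` [helper494's general GAL-T] + `iaGalR_of` [helper788's general
GAL-R]).  The Galois half of IA-CMP is closed; what is left is IA-FREE and the automorphic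
dictionary IA-DICT-T, IA-DICT-R.  The hypotheses `G4Statement`, `S34Shape494`, `S30Statement`,
`HasIntegralStructure` are theorems on main (`S59.H294.g4_294`, `S34.result`, `S30.result`,
`S23.result`); `S36Statement` is the frozen S36.
-/

set_option autoImplicit false

open Polynomial IsLocalRing CongruenceSubgroup
open scoped MatrixGroups

namespace Fermat.Agent.S38.IA.Hecke.H183

open Fermat.Agent.S38.IA Fermat.Agent.S38.IA.Hecke

/-- **The leaf IA-CMP from IA-FREE and the dictionary.** -/
theorem iaCmp_of_dict (hFree : IAFreeStatement) (hDT : IADictTStatement)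
    (hDR : IADictRStatement)
    (hG4 : Fermat.Agent.S59.G4.G4Statement)
    (h34 : Fermat.Agent.S59.TW.H494.S34Shape494)
    (h30 : Fermat.Agent.S31.S30Statement)
    (hIS : ∀ (M : ℕ) [NeZero M], CuspForm.HasIntegralStructure M 2)
    (h36 : Fermat.Agent.S58.S36Statement) : IACmpStatement :=
  iaCmp_of_leaves hFree hDT hDR (iaGalT_of hG4 h34 h30 hIS) (iaGalR_of h36)

end Fermat.Agent.S38.IA.Hecke.H183
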