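import Fermat.Agent.S38.IA.Hecke.Spec3
import Fermat.Agent.S59.TW.H314.CmpSpec

/-!
# Row HARD, cell HECKE, LAYER 4: the leaf IA-CMP of `Hecke/Spec3.lean` — interface  (helper183)

`Hecke.IACmpStatement`: `(w - 1) V = (⟨u⟩_j - 1) V` for every inertia value `w` at `(φ, σ)`,
`σ ↦ u`, at the TAYLOR–WILES primes `q_j` of the combined family (pivots, then Taylor–Wiles
primes).  This file is the twin, for the combined family, of layer 4 of the cell TW of row S59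
(`S59/TW/H314/CmpSpec.lean`, helper314); the text of the Props is the same, with

* `XQ p t Smin qv 𝒪` replaced by `XIA p Smin pv qv 𝒪` (`K = Γ₀(N_min) ∩ Γ_H(Piv ∪ Q)`),
* `diaQ … (Pi.mulSingle j u)` replaced by `diaIA … 1 (Pi.mulSingle j u)`,
* `Σ = Smin ∪ Q` replaced by `Σ = Smin ∪ Piv ∪ Q` (and `t = .flat`).

Route TW-ALG (`S59/H314/TwPt.lean`, Mathlib only): it is enough to know

* **(T)** `IATptAt`: a `T_Q`-eigenvector `y ∈ V` (= nonzero vector with PRIME annihilator) with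
  `⟨u⟩_j y = y` satisfies `w y = y`;
* **(R)** `IARptAt`: a `T_Q`-eigenvector `y ∈ V` with `(1 + ⟨u⟩_j + … + ⟨u⟩_j^(p-1)) y = 0`
  satisfies `w y ≠ y`;

together with the freeness `IAFreeAt V d` (`IACmpGlueStatement`, proved in `CmpGlueIA.lean`).
(T) and (R) are cut into an AUTOMORPHIC half (DICT) and a GALOIS half (GAL) along the notion of a
newform point of `T_Q`.

| leaf | Prop | content |
|---|---|---|
| IA-CMP-GLUE | `IACmpGlueStatement` | `IAFreeAt` + `IATptAt` + `IARptAt` ⇒ `IACmpAt` |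
| IA-DICT-T | `IADictTStatement` | eigenvector with `⟨u⟩_j y = y` ⇒ newform point with `q_j² ∤ M` |
| IA-DICT-R | `IADictRStatement` | eigenvector with `Φ_p(⟨u⟩_j) y = 0` ⇒ newform point with `q_j² ∥ M` |
| IA-GAL-T | `IAGalTStatement` | newform point with `q_j² ∤ M` ⇒ `emb w = 1` |
| IA-GAL-R | `IAGalRStatement` | newform point with `q_j² ∥ M` ⇒ `emb w ≠ 1` |

Glue (`CmpGlueIA.lean`): `iaCmp_of_leaves : IAFreeStatement → IADictTStatement →
IADictRStatement → IAGalTStatement → IAGalRStatement → Hecke.IACmpStatement`.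

Only sorry-free definitions here.
-/

set_option autoImplicit false

open Polynomial IsLocalRing CongruenceSubgroup
open scoped MatrixGroups

namespace Fermat.Agent.S38.IA.Hecke.H183

open Fermat.Agent.S59.Arch Fermat.Agent.S59.TW.H959 Fermat.Agent.S59.TW Fermat.Agent.S59.H765
open Fermat.Agent.S59.TW.H653 Fermat.Agent.S59.TW.Aut
open Fermat.Agent.S38.IA Fermat.Agent.S38.IA.Hecke
open CuspForm

section At

variable {p : ℕ}
  {𝒪 : Type} [CommRing 𝒪] [IsDomain 𝒪] [IsDiscreteValuationRing 𝒪]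
  [IsAdicComplete (maximalIdeal 𝒪) 𝒪]
  {ρbar : ResidualGaloisRep (ResidueField 𝒪)} {Smin Piv : Finset ℕ}
  {k r : ℕ} {pv : Fin k → ℕ} {qv : Fin r → ℕ}
  [NeZero (wilesLevel p .flat Smin (Smin ∪ Piv ∪ Finset.univ.image qv))]

/-- `y` is an **eigenvector** of `T_Q` in `V`: a nonzero vector whose annihilator is a prime ideal
(`T_Q / Ann y` is a domain; every associated prime of `V` is of this form). -/
def IAIsEigVec (PQ : HeckePkg p 𝒪 ρbar .flat Smin (Smin ∪ Piv ∪ Finset.univ.image qv))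
    (V : Submodule 𝒪 (XIA p Smin pv qv 𝒪)) (a : PQ.T →ₐ[𝒪] Module.End 𝒪 V) (y : V) : Prop :=
  y ≠ 0 ∧ ∀ s s' : PQ.T, a (s * s') y = 0 → a s y = 0 ∨ a s' y = 0

/-- **(T) at `V`, pointwise**: an eigenvector of `T_Q` fixed by the diamond operator `⟨u⟩_j` at
the Taylor–Wiles prime `q_j` is fixed by the inertia value `w`. -/
def IATptAt (PQ : HeckePkg p 𝒪 ρbar .flat Smin (Smin ∪ Piv ∪ Finset.univ.image qv))
    (V : Submodule 𝒪 (XIA p Smin pv qv 𝒪)) (a : PQ.T →ₐ[𝒪] Module.End 𝒪 V) : Prop :=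
  ∀ (j : Fin r) (P : ValuationSubring Qb), P.LiesOverPrime (qv j) →
    ∀ φ : GQ, P.IsFrobeniusAt φ (qv j) →
    ∀ σ ∈ P.inertiaSubgroupIn ℚ, ∀ u : (ZMod (qv j))ˣ, orderOf u = qv j - 1 →
      CycloAt (qv j) σ (u : ZMod (qv j)).val →
      ∀ a₀ w : PQ.T, IsInertiaValue PQ.H.ρ φ σ a₀ w →
        ∀ y : V, IAIsEigVec PQ V a y →
          diaIA p Smin pv qv 𝒪 1 (Pi.mulSingle j u) (y : XIA p Smin pv qv 𝒪) = y →
          a w y = y

/-- **(R) at `V`, pointwise**: an eigenvector of `T_Q` on which the diamond operator `⟨u⟩_j` has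
order exactly `p` (`Φ_p(⟨u⟩_j) y = 0`) is NOT fixed by the inertia value `w`. -/
def IARptAt (PQ : HeckePkg p 𝒪 ρbar .flat Smin (Smin ∪ Piv ∪ Finset.univ.image qv))
    (V : Submodule 𝒪 (XIA p Smin pv qv 𝒪)) (a : PQ.T →ₐ[𝒪] Module.End 𝒪 V) : Prop :=
  ∀ (j : Fin r) (P : ValuationSubring Qb), P.LiesOverPrime (qv j) →
    ∀ φ : GQ, P.IsFrobeniusAt φ (qv j) →
    ∀ σ ∈ P.inertiaSubgroupIn ℚ, ∀ u : (ZMod (qv j))ˣ, orderOf u = qv j - 1 →
      CycloAt (qv j) σ (u : ZMod (qv j)).val →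
      ∀ a₀ w : PQ.T, IsInertiaValue PQ.H.ρ φ σ a₀ w →
        ∀ y : V, IAIsEigVec PQ V a y →
          (∑ i ∈ Finset.range p,
            (diaIA p Smin pv qv 𝒪 1 (Pi.mulSingle j u))^[i] (y : XIA p Smin pv qv 𝒪)) = 0 →
          a w y ≠ y

end At

section Pt

variable {p : ℕ}
  {𝒪 : Type} [CommRing 𝒪] [IsDomain 𝒪] [IsDiscreteValuationRing 𝒪]
  [IsAdicComplete (maximalIdeal 𝒪) 𝒪]
  {ρbar : ResidualGaloisRep (ResidueField 𝒪)} {t : PType} {Smin Sig : Finset ℕ}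
  [NeZero (wilesLevel p t Smin Sig)]

/-- **A newform point of the Hecke ring `T_Σ` of a package of type `Σ`** (any `Σ`).
`emb : T_Σ → O'` takes at the `T_ℓ` (`ℓ ∉ Σ`) the Hecke eigenvalues of a newform `g` of level `M`
(all of whose prime factors lie in `Σ`) satisfying `c M`, in the shape of the frozen statements
S35 / S36: `chig` is the eigen-character of `g` on the Hecke algebra of level `M` and `iota`
embeds its values into `O'`.
(For `Σ = Smin ∪ Q` this is `S59.TW.H314.IsNewPt`, word for word.) -/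
def IsNewPtSig (PQ : HeckePkg p 𝒪 ρbar t Smin Sig)
    {O' : Type} [CommRing O'] (emb : PQ.T →+* O') (c : ℕ → Prop) : Prop :=
  ∃ (M : ℕ) (_ : NeZero M) (g : CuspForm (Gamma0 M) 2), g.IsNewform ∧ c M ∧
    (∀ q : ℕ, q.Prime → q ∣ M → q ∈ Sig) ∧
    ∃ (chig : CuspForm.heckeAlgebra M 2 (↑Sig : Set ℕ) →+* ℂ)
      (iota : chig.range →+* O'),
      (∀ (ℓ : ℕ) (hℓ : ℓ.Prime) (hℓM : ¬ ℓ ∣ M) (hℓS : ℓ ∉ (↑Sig : Set ℕ)),
        chig (CuspForm.heckeAlgebra.T hℓ hℓM hℓS) = ModularFormClass.qCoeff g ℓ) ∧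
      ∀ (ℓ : ℕ) (hℓ : ℓ.Prime)
        (hℓN : ¬ ℓ ∣ wilesLevel p t Smin Sig) (hℓM : ¬ ℓ ∣ M)
        (hℓS : ℓ ∉ (↑Sig : Set ℕ)),
        iota (chig.rangeRestrict (CuspForm.heckeAlgebra.T hℓ hℓM hℓS)) =
          emb (PQ.H.π (CuspForm.heckeAlgebra.T hℓ hℓN hℓS))

end Pt

section HasPt

variable {p : ℕ}
  {𝒪 : Type} [CommRing 𝒪] [IsDomain 𝒪] [IsDiscreteValuationRing 𝒪]
  [IsAdicComplete (maximalIdeal 𝒪) 𝒪]
  {ρbar : ResidualGaloisRep (ResidueField 𝒪)} {Smin Piv : Finset ℕ}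
  {k r : ℕ} {pv : Fin k → ℕ} {qv : Fin r → ℕ}
  [NeZero (wilesLevel p .flat Smin (Smin ∪ Piv ∪ Finset.univ.image qv))]

/-- **The eigenvector `y` is a newform point**: there is a newform point `emb : T_Q → O'`, `O'` a
complete DVR of characteristic `0` with finite residue field, `emb` local, whose kernel is the
annihilator of `y`. -/
def IAHasNewPt (PQ : HeckePkg p 𝒪 ρbar .flat Smin (Smin ∪ Piv ∪ Finset.univ.image qv))
    (V : Submodule 𝒪 (XIA p Smin pv qv 𝒪)) (a : PQ.T →ₐ[𝒪] Module.End 𝒪 V) (y : V)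
    (c : ℕ → Prop) : Prop :=
  ∃ (O' : Type) (_ : CommRing O') (_ : IsDomain O') (_ : IsDiscreteValuationRing O')
    (_ : IsAdicComplete (maximalIdeal O') O') (_ : Finite (ResidueField O')) (_ : CharZero O')
    (emb : PQ.T →+* O'), IsLocalHom emb ∧ (∀ s : PQ.T, a s y = 0 ↔ emb s = 0) ∧
      IsNewPtSig PQ emb c

end HasPt

/-! ## The leaves, as closed statements -/

/-- **IA-CMP-GLUE** (pure algebra, route TW-ALG).  Freeness + (T) + (R) ⇒ `IACmpAt`. -/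
def IACmpGlueStatement : Prop :=
  ∀ (p : ℕ) [Fact p.Prime]
    (𝒪 : Type) [CommRing 𝒪] [IsDomain 𝒪] [IsDiscreteValuationRing 𝒪]
    [IsAdicComplete (maximalIdeal 𝒪) 𝒪] [Finite (ResidueField 𝒪)] [CharZero 𝒪]
    (ρbar : ResidualGaloisRep (ResidueField 𝒪)) (Smin : Finset ℕ)
    (_h : ResidualHyp p 𝒪 ρbar Smin)
    (Piv : Finset ℕ) (_hPiv : IsPivotSet p ρbar Smin Piv)
    (k : ℕ) (pv : Fin k → ℕ) (_hpv : Function.Injective pv)
    (_hpvPiv : Finset.univ.image pv = Piv)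
    (n r : ℕ) (qv : Fin r → ℕ) (_hq : IsTWSet p ρbar (Smin ∪ Piv) n qv)
    [NeZero (wilesLevel p .flat Smin (Smin ∪ Piv ∪ Finset.univ.image qv))]
    (PQ : HeckePkg p 𝒪 ρbar .flat Smin (Smin ∪ Piv ∪ Finset.univ.image qv))
    (α : Fin r → 𝒪)
    (V : Submodule 𝒪 (XIA p Smin pv qv 𝒪)) (h : ℕ) (a : PQ.T →ₐ[𝒪] Module.End 𝒪 V) (d : ℕ),
    IsIAPart PQ α V → IsIAAction PQ V h a → IAFreeAt V d → IATptAt PQ V a → IARptAt PQ V a →
      IACmpAt PQ V a

/-- **IA-DICT-T** (automorphic).  An eigenvector of `T_Q` in `V` fixed by `⟨u⟩_j` (`q_j` a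
Taylor–Wiles prime) is a newform point of a level `M` with `q_j² ∤ M`.
(As DICT-T of the cell TW, for the combined family: the eigen-system comes from a cusp form on
`K = Γ₀(N_min) ∩ Γ_H(Piv ∪ Q)` whose nebentypus is trivial at `q_j`; its twist to trivial
character has level prime to `q_j` or exactly divisible by `q_j`.) -/
def IADictTStatement : Prop :=
  ∀ (p : ℕ) [Fact p.Prime] (_hp5 : 5 ≤ p)
    (𝒪 : Type) [CommRing 𝒪] [IsDomain 𝒪] [IsDiscreteValuationRing 𝒪]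
    [IsAdicComplete (maximalIdeal 𝒪) 𝒪] [Finite (ResidueField 𝒪)] [CharZero 𝒪]
    (ρbar : ResidualGaloisRep (ResidueField 𝒪)) (Smin : Finset ℕ)
    (_h : ResidualHyp p 𝒪 ρbar Smin)
    (_hflat : (GaloisRepAdic.ofResidualGaloisRep ρbar).IsFlatAt p)
    (Piv : Finset ℕ) (_hPiv : IsPivotSet p ρbar Smin Piv)
    (k : ℕ) (pv : Fin k → ℕ) (_hpv : Function.Injective pv)
    (_hpvPiv : Finset.univ.image pv = Piv)
    (n r : ℕ) (qv : Fin r → ℕ) (_hq : IsTWSet p ρbar (Smin ∪ Piv) n qv)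
    [NeZero (wilesLevel p .flat Smin (Smin ∪ Piv ∪ Finset.univ.image qv))]
    (PQ : HeckePkg p 𝒪 ρbar .flat Smin (Smin ∪ Piv ∪ Finset.univ.image qv))
    (α : Fin r → 𝒪) (_hα : IsFrobLift ρbar qv α)
    (V : Submodule 𝒪 (XIA p Smin pv qv 𝒪)) (h : ℕ) (a : PQ.T →ₐ[𝒪] Module.End 𝒪 V),
    IsIAPart PQ α V → IsHalf p pv h → IsHalf p qv h → IsIAAction PQ V h a →
    ∀ (j : Fin r) (u : (ZMod (qv j))ˣ), orderOf u = qv j - 1 →
      ∀ y : V, IAIsEigVec PQ V a y →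
        diaIA p Smin pv qv 𝒪 1 (Pi.mulSingle j u) (y : XIA p Smin pv qv 𝒪) = y →
        IAHasNewPt PQ V a y (fun M => ¬ qv j ^ 2 ∣ M)

/-- **IA-DICT-R** (automorphic).  An eigenvector of `T_Q` in `V` on which `⟨u⟩_j` has order
exactly `p` is a newform point of a level `M` with `q_j² ∥ M`.
(As DICT-R of the cell TW, for the combined family.) -/
def IADictRStatement : Prop :=
  ∀ (p : ℕ) [Fact p.Prime] (_hp5 : 5 ≤ p)
    (𝒪 : Type) [CommRing 𝒪] [IsDomain 𝒪] [IsDiscreteValuationRing 𝒪]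
    [IsAdicComplete (maximalIdeal 𝒪) 𝒪] [Finite (ResidueField 𝒪)] [CharZero 𝒪]
    (ρbar : ResidualGaloisRep (ResidueField 𝒪)) (Smin : Finset ℕ)
    (_h : ResidualHyp p 𝒪 ρbar Smin)
    (_hflat : (GaloisRepAdic.ofResidualGaloisRep ρbar).IsFlatAt p)
    (Piv : Finset ℕ) (_hPiv : IsPivotSet p ρbar Smin Piv)
    (k : ℕ) (pv : Fin k → ℕ) (_hpv : Function.Injective pv)
    (_hpvPiv : Finset.univ.image pv = Piv)
    (n r : ℕ) (qv : Fin r → ℕ) (_hq : IsTWSet p ρbar (Smin ∪ Piv) n qv)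
    [NeZero (wilesLevel p .flat Smin (Smin ∪ Piv ∪ Finset.univ.image qv))]
    (PQ : HeckePkg p 𝒪 ρbar .flat Smin (Smin ∪ Piv ∪ Finset.univ.image qv))
    (α : Fin r → 𝒪) (_hα : IsFrobLift ρbar qv α)
    (V : Submodule 𝒪 (XIA p Smin pv qv 𝒪)) (h : ℕ) (a : PQ.T →ₐ[𝒪] Module.End 𝒪 V),
    IsIAPart PQ α V → IsHalf p pv h → IsHalf p qv h → IsIAAction PQ V h a →
    ∀ (j : Fin r) (u : (ZMod (qv j))ˣ), orderOf u = qv j - 1 →
      ∀ y : V, IAIsEigVec PQ V a y →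
        (∑ i ∈ Finset.range p,
          (diaIA p Smin pv qv 𝒪 1 (Pi.mulSingle j u))^[i] (y : XIA p Smin pv qv 𝒪)) = 0 →
        IAHasNewPt PQ V a y (fun M => M.factorization (qv j) = 2)

/-- **GAL-T for a package of any type `Σ`** (Galois).  `q ∈ Σ ∖ Smin` a prime, `q ≡ 1` modulo `p`,
at which every Frobenius has two distinct eigenvalues on `ρ̄`.  At a newform point of level `M`
with `q² ∤ M` the inertia value at `q` is `1`.
(`q ∤ M`: the representation of the frozen S30 at level `M` is unramified at `q` and has the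
same Frobenius characteristic polynomials as `ρ_Σ ⊗ O''`, so the same traces [Chebotarev];
the inertia value is a formula in traces.  `q ∥ M`: impossible, by the frozen S35 the Frobenius
at `q` would have eigenvalues `±1, ±q`, equal modulo `p`.)
For `Σ = Smin ∪ Q`, `q = q_j` this is `S59.TW.H314.GalTStatement`. -/
def GalTSigStatement : Prop :=
  ∀ (p : ℕ) [Fact p.Prime]
    (𝒪 : Type) [CommRing 𝒪] [IsDomain 𝒪] [IsDiscreteValuationRing 𝒪]
    [IsAdicComplete (maximalIdeal 𝒪) 𝒪] [Finite (ResidueField 𝒪)] [CharZero 𝒪]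
    (ρbar : ResidualGaloisRep (ResidueField 𝒪)) (Smin : Finset ℕ)
    (_h : ResidualHyp p 𝒪 ρbar Smin) (t : PType) (Sig : Finset ℕ)
    (_hSig : ∀ q ∈ Sig, q.Prime) (_hSminSig : Smin ⊆ Sig)
    [NeZero (wilesLevel p t Smin Sig)]
    (PQ : HeckePkg p 𝒪 ρbar t Smin Sig)
    (q : ℕ) (_hq : q.Prime) (_hqSig : q ∈ Sig) (_hqS : q ∉ Smin) (_hpq : p ∣ q - 1)
    (_hdist : ∀ P : ValuationSubring (AlgebraicClosure ℚ), P.LiesOverPrime q →
      ∀ φ : AlgebraicClosure ℚ ≃ₐ[ℚ] AlgebraicClosure ℚ, P.IsFrobeniusAt φ q →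
        ∃ α β : ResidueField 𝒪, α ≠ β ∧ LinearMap.charpoly (ρbar.ρ φ) = (X - C α) * (X - C β))
    (P : ValuationSubring Qb), P.LiesOverPrime q →
    ∀ φ : GQ, P.IsFrobeniusAt φ q →
    ∀ σ ∈ P.inertiaSubgroupIn ℚ,
      ∀ a₀ w : PQ.T, IsInertiaValue PQ.H.ρ φ σ a₀ w →
      ∀ (O' : Type) [CommRing O'] [IsDomain O'] [IsDiscreteValuationRing O']
        [IsAdicComplete (maximalIdeal O') O'] [Finite (ResidueField O')] [CharZero O']
        (emb : PQ.T →+* O'), IsLocalHom emb →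
        IsNewPtSig PQ emb (fun M => ¬ q ^ 2 ∣ M) → emb w = 1

/-- **GAL-R for a package of any type `Σ`** (Galois).  At a newform point of level `M` with
`q² ∥ M` the inertia value at `(φ, σ)`, `σ ↦` a primitive root modulo `q`, is not `1`.
(Frozen S36 + Chebotarev + `H59.twGal1` + `H59.twGalCyc`, as for `S59.TW.H314.GalRStatement`,
which is the case `Σ = Smin ∪ Q`, `q = q_j`.) -/
def GalRSigStatement : Prop :=
  ∀ (p : ℕ) [Fact p.Prime]
    (𝒪 : Type) [CommRing 𝒪] [IsDomain 𝒪] [IsDiscreteValuationRing 𝒪]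
    [IsAdicComplete (maximalIdeal 𝒪) 𝒪] [Finite (ResidueField 𝒪)] [CharZero 𝒪]
    (ρbar : ResidualGaloisRep (ResidueField 𝒪)) (Smin : Finset ℕ)
    (_h : ResidualHyp p 𝒪 ρbar Smin) (t : PType) (Sig : Finset ℕ)
    (_hSig : ∀ q ∈ Sig, q.Prime) (_hSminSig : Smin ⊆ Sig)
    [NeZero (wilesLevel p t Smin Sig)]
    (PQ : HeckePkg p 𝒪 ρbar t Smin Sig)
    (q : ℕ) (_hq : q.Prime) (_hqSig : q ∈ Sig) (_hqS : q ∉ Smin) (_hpq : p ∣ q - 1)
    (_hdist : ∀ P : ValuationSubring (AlgebraicClosure ℚ), P.LiesOverPrime q →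
      ∀ φ : AlgebraicClosure ℚ ≃ₐ[ℚ] AlgebraicClosure ℚ, P.IsFrobeniusAt φ q →
        ∃ α β : ResidueField 𝒪, α ≠ β ∧ LinearMap.charpoly (ρbar.ρ φ) = (X - C α) * (X - C β))
    (P : ValuationSubring Qb), P.LiesOverPrime q →
    ∀ φ : GQ, P.IsFrobeniusAt φ q →
    ∀ σ ∈ P.inertiaSubgroupIn ℚ, ∀ u : (ZMod q)ˣ, orderOf u = q - 1 →
      CycloAt q σ (u : ZMod q).val →
      ∀ a₀ w : PQ.T, IsInertiaValue PQ.H.ρ φ σ a₀ w →
      ∀ (O' : Type) [CommRing O'] [IsDomain O'] [IsDiscreteValuationRing O']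
        [IsAdicComplete (maximalIdeal O') O'] [Finite (ResidueField O')] [CharZero O']
        (emb : PQ.T →+* O'), IsLocalHom emb →
        IsNewPtSig PQ emb (fun M => M.factorization q = 2) → emb w ≠ 1

/-- **IA-GAL-T**: `GalTSigStatement` at `Σ = Smin ∪ Piv ∪ Q`, `q = q_j`. -/
def IAGalTStatement : Prop :=
  ∀ (p : ℕ) [Fact p.Prime]
    (𝒪 : Type) [CommRing 𝒪] [IsDomain 𝒪] [IsDiscreteValuationRing 𝒪]
    [IsAdicComplete (maximalIdeal 𝒪) 𝒪] [Finite (ResidueField 𝒪)] [CharZero 𝒪]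
    (ρbar : ResidualGaloisRep (ResidueField 𝒪)) (Smin : Finset ℕ)
    (_h : ResidualHyp p 𝒪 ρbar Smin)
    (Piv : Finset ℕ) (_hPiv : IsPivotSet p ρbar Smin Piv)
    (n r : ℕ) (qv : Fin r → ℕ) (_hq : IsTWSet p ρbar (Smin ∪ Piv) n qv)
    [NeZero (wilesLevel p .flat Smin (Smin ∪ Piv ∪ Finset.univ.image qv))]
    (PQ : HeckePkg p 𝒪 ρbar .flat Smin (Smin ∪ Piv ∪ Finset.univ.image qv))
    (j : Fin r) (P : ValuationSubring Qb), P.LiesOverPrime (qv j) →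
    ∀ φ : GQ, P.IsFrobeniusAt φ (qv j) →
    ∀ σ ∈ P.inertiaSubgroupIn ℚ,
      ∀ a₀ w : PQ.T, IsInertiaValue PQ.H.ρ φ σ a₀ w →
      ∀ (O' : Type) [CommRing O'] [IsDomain O'] [IsDiscreteValuationRing O']
        [IsAdicComplete (maximalIdeal O') O'] [Finite (ResidueField O')] [CharZero O']
        (emb : PQ.T →+* O'), IsLocalHom emb →
        IsNewPtSig PQ emb (fun M => ¬ qv j ^ 2 ∣ M) → emb w = 1

/-- **IA-GAL-R**: `GalRSigStatement` at `Σ = Smin ∪ Piv ∪ Q`, `q = q_j`. -/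
def IAGalRStatement : Prop :=
  ∀ (p : ℕ) [Fact p.Prime]
    (𝒪 : Type) [CommRing 𝒪] [IsDomain 𝒪] [IsDiscreteValuationRing 𝒪]
    [IsAdicComplete (maximalIdeal 𝒪) 𝒪] [Finite (ResidueField 𝒪)] [CharZero 𝒪]
    (ρbar : ResidualGaloisRep (ResidueField 𝒪)) (Smin : Finset ℕ)
    (_h : ResidualHyp p 𝒪 ρbar Smin)
    (Piv : Finset ℕ) (_hPiv : IsPivotSet p ρbar Smin Piv)
    (n r : ℕ) (qv : Fin r → ℕ) (_hq : IsTWSet p ρbar (Smin ∪ Piv) n qv)
    [NeZero (wilesLevel p .flat Smin (Smin ∪ Piv ∪ Finset.univ.image qv))]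
    (PQ : HeckePkg p 𝒪 ρbar .flat Smin (Smin ∪ Piv ∪ Finset.univ.image qv))
    (j : Fin r) (P : ValuationSubring Qb), P.LiesOverPrime (qv j) →
    ∀ φ : GQ, P.IsFrobeniusAt φ (qv j) →
    ∀ σ ∈ P.inertiaSubgroupIn ℚ, ∀ u : (ZMod (qv j))ˣ, orderOf u = qv j - 1 →
      CycloAt (qv j) σ (u : ZMod (qv j)).val →
      ∀ a₀ w : PQ.T, IsInertiaValue PQ.H.ρ φ σ a₀ w →
      ∀ (O' : Type) [CommRing O'] [IsDomain O'] [IsDiscreteValuationRing O']
        [IsAdicComplete (maximalIdeal O') O'] [Finite (ResidueField O')] [CharZero O']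
        (emb : PQ.T →+* O'), IsLocalHom emb →
        IsNewPtSig PQ emb (fun M => M.factorization (qv j) = 2) → emb w ≠ 1

end Fermat.Agent.S38.IA.Hecke.H183
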