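import Fermat.Agent.S38.IA.Hecke.H183.CmpSpecIA
import Fermat.Agent.S38.IA.Hecke.GlueB2
import Fermat.Agent.S59.TW.H123.InertiaOrder
import Fermat.Agent.S59.H314.TwPt
import Fermat.Agent.S59.TW.Aut.Skel

/-!
# Row HARD, cell HECKE, layer 4: leaf IA-CMP-GLUE and the glue of the leaf IA-CMP  (helper183)

* `standing` — the arithmetic side conditions of helper3's `GlueB2` (`hsig`, `hM`, `hsurj`) from
  `ResidualHyp`, `IsPivotSet`, `IsTWSet` and the enumeration `pv` of the pivots.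
* `iaCmpGlue : IACmpGlueStatement` — `IAFreeAt V d` + `IATptAt` + `IARptAt` ⇒ `IACmpAt`
  (route TW-ALG: `S59.H314.twCmp_of_pt`, Mathlib only, applied to helper3's `VMod V a` with the
  diamond action of the Taylor–Wiles factor of `diaMod`; the `𝒪[Δ_Q]`-basis is
  `⟨g₁^{e₁}⟩ b_i`; the order of the inertia value is INO, `TW.H123.inertiaOrder`).
* `iaTptAt_of`, `iaRptAt_of` — (T), (R) from the dictionary and the Galois leaves.
* `iaCmp_of_leaves : IAFreeStatement → IADictTStatement → IADictRStatement → IAGalTStatement →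
  IAGalRStatement → Hecke.IACmpStatement`.
-/

set_option autoImplicit false
set_option linter.style.haveILetI false
set_option linter.unusedSectionVars false
set_option linter.unusedVariables false

open Polynomial IsLocalRing CongruenceSubgroup
open scoped MatrixGroups

namespace Fermat.Agent.S38.IA.Hecke.H183

open Fermat.Agent.S59.Arch Fermat.Agent.S59.TW.H959 Fermat.Agent.S59.TW Fermat.Agent.S59.H765
open Fermat.Agent.S59.TW.H653 Fermat.Agent.S59.TW.Aut
open Fermat.Agent.S38.IA Fermat.Agent.S38.IA.Hecke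
open CuspForm

/-! ## The standing arithmetic facts -/

section Arith

variable {p : ℕ} {k r : ℕ} {pv : Fin k → ℕ} {qv : Fin r → ℕ} {Smin Piv : Finset ℕ}

theorem sumElim_prime (hprimep : ∀ i, (pv i).Prime) (hprimeq : ∀ j, (qv j).Prime) :
    ∀ s, (Sum.elim pv qv s).Prime := by
  rintro (i | j)
  · exact hprimep i
  · exact hprimeq j

theorem sumElim_injective (hpv : Function.Injective pv) (hqv : Function.Injective qv)
    (hdisj : ∀ i j, pv i ≠ qv j) : Function.Injective (Sum.elim pv qv) := by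
  rintro (i | j) (i' | j') h
  · exact congrArg Sum.inl (hpv h)
  · exact absurd h (hdisj i j')
  · exact absurd h.symm (hdisj i' j)
  · exact congrArg Sum.inr (hqv h)

theorem sumElim_mem (hpvPiv : Finset.univ.image pv = Piv) (s : Fin k ⊕ Fin r) :
    Sum.elim pv qv s ∈ Smin ∪ Piv ∪ Finset.univ.image qv := by
  rcases s with i | j
  · refine Finset.mem_union_left _ (Finset.mem_union_right _ ?_)
    rw [← hpvPiv]
    exact Finset.mem_image_of_mem pv (Finset.mem_univ i)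
  · exact Finset.mem_union_right _ (Finset.mem_image_of_mem qv (Finset.mem_univ j))

theorem not_dvd_MIA (hpvPiv : Finset.univ.image pv = Piv) (hprime : ∀ s, (Sum.elim pv qv s).Prime)
    {ℓ : ℕ} (hℓ : ℓ.Prime)
    (hℓN : ¬ ℓ ∣ wilesLevel p .flat Smin (Smin ∪ Piv ∪ Finset.univ.image qv))
    (hℓS : ℓ ∉ (↑(Smin ∪ Piv ∪ Finset.univ.image qv) : Set ℕ)) :
    ¬ ℓ ∣ MIA p Smin pv qv := by
  intro h
  rcases (Nat.Prime.dvd_mul hℓ).mp h with h1 | h1
  · exact hℓN (h1.trans (wilesLevel_min_dvd p .flat Smin _))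
  · obtain ⟨s, -, hs⟩ := (Prime.dvd_finsetProd_iff (Nat.Prime.prime hℓ) _).mp h1
    have : ℓ = Sum.elim pv qv s := (Nat.prime_dvd_prime_iff_eq hℓ (hprime s)).mp hs
    apply hℓS
    rw [this]
    exact Finset.mem_coe.mpr (sumElim_mem hpvPiv s)

end Arith


/-! ## Re-indexing a basis over `𝒪[Δ₁ × Δ₂]` as a basis over `𝒪[Δ₂]` -/

section Reindex

variable {𝒪 : Type} [CommRing 𝒪] {T : Type} [CommRing T] [Algebra 𝒪 T]
  {W : Type} [AddCommGroup W] [Module T W]
  {D₁ D₂ : Type} [Monoid D₁] [Monoid D₂]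
  {E₁ E₂ : Type} [Fintype E₁] [Fintype E₂]

/-- A basis `dia (γ₁ e₁, γ₂ e₂) (b i)` (`i < d`, `e₁ ∈ E₁`, `e₂ ∈ E₂`) is a basis
`dia (1, γ₂ e₂) (b' i')`, `i' < d' = d · #E₁`, with `b' = dia (γ₁ e₁, 1) (b i)`. -/
theorem exists_basis_snd (dia : D₁ × D₂ →* Module.End T W) (γ₁ : E₁ → D₁) (γ₂ : E₂ → D₂)
    {d : ℕ} (b : Fin d → W)
    (hb : ∀ y : W, ∃! c : Fin d → E₁ × E₂ → 𝒪,
      y = ∑ i, ∑ e, algebraMap 𝒪 T (c i e) • dia (γ₁ e.1, γ₂ e.2) (b i)) :
    ∃ (d' : ℕ) (b' : Fin d' → W), ∀ y : W, ∃! c : Fin d' → E₂ → 𝒪,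
      y = ∑ i, ∑ e, algebraMap 𝒪 T (c i e) • dia (1, γ₂ e) (b' i) := by
  classical
  let eqv : Fin d × E₁ ≃ Fin (Fintype.card (Fin d × E₁)) := Fintype.equivFin _
  refine ⟨Fintype.card (Fin d × E₁), fun i' => dia (γ₁ (eqv.symm i').2, 1) (b (eqv.symm i').1), ?_⟩
  -- the dictionary between the two families of coefficients
  have hsum : ∀ c' : Fin (Fintype.card (Fin d × E₁)) → E₂ → 𝒪,
      (∑ i', ∑ e, algebraMap 𝒪 T (c' i' e) •
        dia (1, γ₂ e) (dia (γ₁ (eqv.symm i').2, 1) (b (eqv.symm i').1))) =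
      ∑ i, ∑ e : E₁ × E₂, algebraMap 𝒪 T (c' (eqv (i, e.1)) e.2) •
        dia (γ₁ e.1, γ₂ e.2) (b i) := by
    intro c'
    rw [← Equiv.sum_comp eqv, Fintype.sum_prod_type]
    refine Finset.sum_congr rfl fun i _ => ?_
    rw [Fintype.sum_prod_type]
    refine Finset.sum_congr rfl fun e₁ _ => ?_
    refine Finset.sum_congr rfl fun e₂ _ => ?_
    rw [Equiv.symm_apply_apply, ← Module.End.mul_apply, ← map_mul, Prod.mk_mul_mk, one_mul,
      mul_one]
  intro y
  obtain ⟨c, hc, hcu⟩ := hb y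
  refine ⟨fun i' e₂ => c (eqv.symm i').1 ((eqv.symm i').2, e₂), ?_, ?_⟩
  · show y = _
    rw [hsum]
    simp only [Equiv.symm_apply_apply]
    exact hc
  · intro c' hc'
    have hc'' : y = ∑ i, ∑ e : E₁ × E₂, algebraMap 𝒪 T (c' (eqv (i, e.1)) e.2) •
        dia (γ₁ e.1, γ₂ e.2) (b i) := by
      rw [← hsum]
      exact hc'
    have h1 := hcu (fun i e => c' (eqv (i, e.1)) e.2) hc''
    funext i' e₂
    have h2 := congrFun (congrFun h1 (eqv.symm i').1) ((eqv.symm i').2, e₂)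
    simp only [Prod.mk.eta, Equiv.apply_symm_apply] at h2
    exact h2

end Reindex


/-! ## IA-CMP-GLUE -/

/-- **IA-CMP-GLUE.** -/
theorem iaCmpGlue : IACmpGlueStatement := by
  classical
  intro p hpF 𝒪 _ _ _ _ _ _ ρbar Smin h Piv hPiv k pv hpv hpvPiv n r qv hq _ PQ α V hh a d
    hV ha hfree hT hR
  -- the standing arithmetic facts
  have hprimeq : ∀ j, (qv j).Prime := fun j => (hq.2.1 j).1
  have hpivmem : ∀ i, pv i ∈ Piv := fun i => by
    rw [← hpvPiv]
    exact Finset.mem_image_of_mem pv (Finset.mem_univ i)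
  have hprimep : ∀ i, (pv i).Prime := fun i => (hPiv (pv i) (hpivmem i)).1
  have hprime := sumElim_prime hprimep hprimeq
  have hdisj : ∀ i j, pv i ≠ qv j := fun i j e =>
    (hq.2.1 j).2.1 (Finset.mem_union_right _ (e ▸ hpivmem i))
  have hinj := sumElim_injective hpv hq.1 hdisj
  have hSigP : ∀ q ∈ Smin ∪ Piv ∪ Finset.univ.image qv, q.Prime := by
    intro q hq'
    rcases Finset.mem_union.mp hq' with h' | h'
    · rcases Finset.mem_union.mp h' with h'' | h''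
      · exact h.hSmin q h''
      · exact (hPiv q h'').1
    · obtain ⟨j, -, rfl⟩ := Finset.mem_image.mp h'
      exact hprimeq j
  have hsub : Smin ⊆ Smin ∪ Piv ∪ Finset.univ.image qv :=
    Finset.subset_union_left.trans Finset.subset_union_left
  have hN₀ : wilesLevel p .flat Smin Smin ≠ 0 := wilesLevel_ne_zero hpF.out h.hSmin h.hSmin
  haveI hMIA : NeZero (MIA p Smin pv qv) := ⟨gLevel_ne_zero _ _ hN₀ hprime⟩
  have hsurj := gRed_surjective (wilesLevel p .flat Smin Smin) (Sum.elim pv qv) hN₀ hinj hprime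
  have hsig : ∀ q : ℕ, q.Prime →
      q ∣ wilesLevel p .flat Smin (Smin ∪ Piv ∪ Finset.univ.image qv) →
      q ∈ (↑(Smin ∪ Piv ∪ Finset.univ.image qv) : Set ℕ) := fun q hq' hd =>
    Finset.mem_coe.mpr
      (mem_of_prime_dvd_wilesLevel hpF.out h.hSmin hSigP h.hpSmin hsub q hq' hd)
  have hM : ∀ ℓ : ℕ, ℓ.Prime →
      ¬ ℓ ∣ wilesLevel p .flat Smin (Smin ∪ Piv ∪ Finset.univ.image qv) →
      ℓ ∉ (↑(Smin ∪ Piv ∪ Finset.univ.image qv) : Set ℕ) → ¬ ℓ ∣ MIA p Smin pv qv :=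
    fun ℓ hℓ hℓN hℓS => not_dvd_MIA hpvPiv hprime hℓ hℓN hℓS
  -- the diamond action
  let D := diaMod hV ha hsig hM hsurj
  let D₂ : (∀ j : Fin r, (ZMod (qv j))ˣ) →* Module.End PQ.T (VMod V a) :=
    D.comp (MonoidHom.inr _ _)
  have hD₂ : ∀ (u : ∀ j : Fin r, (ZMod (qv j))ˣ) (y : VMod V a),
      VMod.toX (D₂ u y) = diaIA p Smin pv qv 𝒪 1 u (VMod.toX y) := fun u y => rfl
  have hD₂pow : ∀ (u : ∀ j : Fin r, (ZMod (qv j))ˣ) (i : ℕ) (y : VMod V a),
      VMod.toX ((D₂ u ^ i) y) = (diaIA p Smin pv qv 𝒪 1 u)^[i] (VMod.toX y) := by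
    intro u i
    induction i with
    | zero => intro y; rfl
    | succ i ih =>
      intro y
      rw [pow_succ, Module.End.mul_apply, ih, hD₂, Function.iterate_succ_apply]
  intro j P hP φ hφ σ hσ u hu hcyc a₀ w hw
  -- the order of `w`
  obtain ⟨-, hqv, -⟩ := hq
  obtain ⟨hqprime, hqS, hqdvd⟩ := hqv j
  have hdet : PQ.H.ρ.DetIsCyclotomic p := PQ.hcond.1.1
  have hqSmin : qv j ∉ Smin := fun e => hqS (Finset.mem_union_left _ e)
  have hqp : qv j ≠ p := fun e => hqSmin (e ▸ h.hpSmin)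
  have hpq : p ∣ qv j - 1 := dvd_trans (dvd_pow_self p (Nat.succ_ne_zero n)) hqdvd
  have hunr : PQ.H.ρ.residual.IsUnramifiedAt (qv j) := by
    have h1 : ρbar.IsUnramifiedAt (qv j) := by
      by_contra hcon
      exact hqSmin ((h.hmin (qv j) hqprime hqp).mpr hcon)
    obtain ⟨e⟩ := PQ.hres
    intro B hB τ hτ
    have h2 : (ρbar.baseChangeAlong (ResidueField.map (algebraMap 𝒪 PQ.T))).ρ τ = 1 := by
      letI : Algebra (ResidueField 𝒪) (ResidueField PQ.T) :=
        (ResidueField.map (algebraMap 𝒪 PQ.T)).toAlgebra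
      show (ρbar.ρ τ).baseChange (ResidueField PQ.T) = 1
      rw [h1 B hB τ hτ]
      exact LinearMap.baseChange_one _ _
    refine LinearMap.ext fun x => ?_
    apply e.toLinearEquiv.injective
    rw [e.map_apply, h2]
    rfl
  haveI : Finite (ResidueField PQ.T) := IsLocalRing.ResidueField.finite_of_finite (R := 𝒪) ‹_›
  obtain ⟨w', -, hwp, -⟩ :=
    Fermat.Agent.S59.TW.H123.inertiaOrder p PQ.T hdet.1 PQ.H.ρ hdet (qv j) hqprime hqp hpq hunr
      P hP φ hφ σ hσ a₀ w hw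
  -- primitive roots
  have hprimq : ∀ i, ∃ g : (ZMod (qv i))ˣ, orderOf g = qv i - 1 := by
    intro i
    have : Fact (qv i).Prime := ⟨hprimeq i⟩
    have := ZMod.isCyclic_units_prime (hprimeq i)
    obtain ⟨g, hg⟩ := IsCyclic.exists_ofOrder_eq_natCard (α := (ZMod (qv i))ˣ)
    refine ⟨g, ?_⟩
    rw [hg, Nat.card_eq_fintype_card, ZMod.card_units]
  have hprimp : ∀ i, ∃ g : (ZMod (pv i))ˣ, orderOf g = pv i - 1 := by
    intro i
    have : Fact (pv i).Prime := ⟨hprimep i⟩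
    have := ZMod.isCyclic_units_prime (hprimep i)
    obtain ⟨g, hg⟩ := IsCyclic.exists_ofOrder_eq_natCard (α := (ZMod (pv i))ˣ)
    refine ⟨g, ?_⟩
    rw [hg, Nat.card_eq_fintype_card, ZMod.card_units]
  choose g₁ hg₁ using hprimp
  choose g₀ hg₀ using hprimq
  obtain ⟨g₂, hgj, hg₂⟩ : ∃ g : ∀ i : Fin r, (ZMod (qv i))ˣ, g j = u ∧
      ∀ i, orderOf (g i) = qv i - 1 := by
    refine ⟨Function.update g₀ j u, Function.update_self .., ?_⟩
    intro i
    by_cases h : i = j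
    · subst h
      rw [Function.update_self]
      exact hu
    · rw [Function.update_of_ne h]
      exact hg₀ i
  -- the basis over `𝒪[Δ_Piv × Δ_Q]`, then over `𝒪[Δ_Q]`
  obtain ⟨b, hb⟩ := free_of_freeAt (a := a) hV ha hsig hM hsurj hfree g₁ g₂ hg₁ hg₂
  obtain ⟨d', b', hb'⟩ := exists_basis_snd (𝒪 := 𝒪) D
    (fun e₁ : ∀ i : Fin k, Fin (p ^ padicValNat p (pv i - 1)) => fun i' => g₁ i' ^ (e₁ i' : ℕ))
    (fun e₂ : ∀ j : Fin r, Fin (p ^ padicValNat p (qv j - 1)) => fun j' => g₂ j' ^ (e₂ j' : ℕ))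
    b hb
  have hX : ∀ i, D₂ (Pi.mulSingle i (g₂ i)) ^ (p ^ padicValNat p (qv i - 1)) = 1 := by
    intro i
    rw [← map_pow]
    have h1 : (Pi.mulSingle i (g₂ i) ^ p ^ padicValNat p (qv i - 1) :
        ∀ j : Fin r, (ZMod (qv j))ˣ) =
        fun j => (Pi.mulSingle i (g₂ i) : ∀ j : Fin r, (ZMod (qv j))ˣ) j ^
          p ^ padicValNat p (qv j - 1) := by
      funext i'
      by_cases h : i' = i
      · subst h
        simp
      · simp [Pi.mulSingle_eq_of_ne h]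
    rw [h1]
    exact diaMod_pow₂ hV ha hsig hM hsurj _
  have hpJ : (p : 𝒪) ∈ Ideal.jacobson (⊥ : Ideal 𝒪) := maximalIdeal_le_jacobson ⊥ h.hp𝒪
  have hpnzd : ∀ c : 𝒪, (p : 𝒪) * c = 0 → c = 0 := by
    intro c hc
    rcases mul_eq_zero.mp hc with h' | h'
    · exact absurd h' (by exact_mod_cast hpF.out.ne_zero)
    · exact h'
  haveI : IsNoetherianRing PQ.T := PQ.isNoetherianRing
  -- eigenvectors
  have heig : ∀ y : VMod V a, y ≠ 0 →
      (∀ s s' : PQ.T, (s * s') • y = 0 → s • y = 0 ∨ s' • y = 0) →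
      IAIsEigVec PQ V a (VMod.val y) := by
    intro y hy hpr
    exact ⟨hy, fun s s' hss' => hpr s s' hss'⟩
  have key := Fermat.Agent.S59.H314.twCmp_of_pt p hpF.out h.hp2 𝒪 hpJ hpnzd PQ.T (VMod V a) r
    (fun i => (ZMod (qv i))ˣ) (fun i => padicValNat p (qv i - 1)) D₂ g₂ hX d' b' hb' j w _ hwp
    (by
      intro y hy hpr hfix
      rw [hgj] at hfix
      exact hT j P hP φ hφ σ hσ u hu hcyc a₀ w hw (VMod.val y) (heig y hy hpr)
        (congrArg VMod.toX hfix))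
    (by
      intro y hy hpr hΦ
      rw [hgj] at hΦ
      refine hR j P hP φ hφ σ hσ u hu hcyc a₀ w hw (VMod.val y) (heig y hy hpr) ?_
      have h2 : VMod.toX ((∑ i ∈ Finset.range p, D₂ (Pi.mulSingle j u) ^ i) y) = 0 := by
        rw [hΦ]
        rfl
      rw [LinearMap.sum_apply, map_sum] at h2
      rw [← h2]
      refine Finset.sum_congr rfl fun i _ => ?_
      exact (hD₂pow _ i y).symm)
  rw [hgj] at key
  intro y
  have key' := key (VMod.mk y)
  constructor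
  · rintro ⟨y', hy'⟩
    obtain ⟨z, hz⟩ := key'.mp ⟨VMod.mk y', hy'⟩
    exact ⟨VMod.val z, congrArg VMod.toX hz⟩
  · rintro ⟨y', hy'⟩
    obtain ⟨z, hz⟩ := key'.mpr ⟨VMod.mk y', Subtype.ext hy'⟩
    exact ⟨VMod.val z, hz⟩


/-! ## The leaf IA-CMP from its layer-4 leaves -/

/-- **The leaf IA-CMP from its layer-4 leaves.** -/
theorem iaCmp_of_leaves (hFree : IAFreeStatement) (hDT : IADictTStatement)
    (hDR : IADictRStatement) (hGT : IAGalTStatement) (hGR : IAGalRStatement) :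
    IACmpStatement := by
  intro p hpF hp5 𝒪 _ _ _ _ _ _ ρbar Smin h hflat Piv hPiv k pv hpv hpvPiv n r qv hq _ PQ α hα
    V hh a hV hhalf₁ hhalf₂ ha
  obtain ⟨d, hfree⟩ :=
    hFree p hp5 𝒪 ρbar Smin h hflat Piv hPiv k pv hpv hpvPiv n r qv hq PQ α hα V hV
  have hsubw : ∀ (w : PQ.T) (y : V), a (w - 1) y = a w y - y := by
    intro w y
    have h1 : a w = a (w - 1) + 1 := by
      rw [← map_one a, ← map_add, sub_add_cancel]
    rw [h1, LinearMap.add_apply, Module.End.one_apply]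
    exact (add_sub_cancel_right (a (w - 1) y) y).symm
  have hT : IATptAt PQ V a := by
    intro j P hP φ hφ σ hσ u hu _hcyc a₀ w hw y hy hfix
    obtain ⟨O', _, _, _, _, _, _, emb, hloc, hker, hnew⟩ :=
      hDT p hp5 𝒪 ρbar Smin h hflat Piv hPiv k pv hpv hpvPiv n r qv hq PQ α hα V hh a hV
        hhalf₁ hhalf₂ ha j u hu y hy hfix
    have h1 : emb w = 1 :=
      hGT p 𝒪 ρbar Smin h Piv hPiv n r qv hq PQ j P hP φ hφ σ hσ a₀ w hw O' emb hloc hnew
    have h2 : a (w - 1) y = 0 := by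
      rw [hker, map_sub, h1, map_one, sub_self]
    have h3 := hsubw w y
    rw [h2] at h3
    exact sub_eq_zero.mp h3.symm
  have hR : IARptAt PQ V a := by
    intro j P hP φ hφ σ hσ u hu hcyc a₀ w hw y hy hΦ hwy
    obtain ⟨O', _, _, _, _, _, _, emb, hloc, hker, hnew⟩ :=
      hDR p hp5 𝒪 ρbar Smin h hflat Piv hPiv k pv hpv hpvPiv n r qv hq PQ α hα V hh a hV
        hhalf₁ hhalf₂ ha j u hu y hy hΦ
    have h1 : emb w ≠ 1 :=
      hGR p 𝒪 ρbar Smin h Piv hPiv n r qv hq PQ j P hP φ hφ σ hσ u hu hcyc a₀ w hw O' emb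
        hloc hnew
    apply h1
    have h2 : a (w - 1) y = 0 := by
      rw [hsubw, hwy]
      exact sub_self y
    have h3 := (hker (w - 1)).mp h2
    rw [map_sub, map_one, sub_eq_zero] at h3
    exact h3
  exact iaCmpGlue p 𝒪 ρbar Smin h Piv hPiv k pv hpv hpvPiv n r qv hq PQ α V hh a d hV ha hfree
    hT hR

end Fermat.Agent.S38.IA.Hecke.H183
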